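import Mathlib
import Fermat.Agent.H51.S58.Interfaces
import Fermat.Agent.H50.EsC.Eigen

/-!
# P-S58 / row 1089 S58-EIG (helper90): the Hecke character of a normalized eigenform

`eigenChar : Fermat.Agent.H51.S58.EigenCharStatement`: for a normalized eigenform `g` of level
`M` and a finite set `S` containing the primes of `M`, the Hecke algebra away from `S` acts on
`g` through a ring homomorphism `chig` to `ℂ` with `chig (T_ℓ) = a_ℓ(g)`, and the range of `chig`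
lies in every subring of `ℂ` containing the `a_ℓ(g)`, `ℓ ∉ S`.

By-products: `eig_exists_scalar` (every element of the Hecke algebra acts on `g` by a scalar of
`B`), `eigChar` (the character, as a ring homomorphism), `eigChar_smul` (`t g = chig t • g`).
-/

set_option autoImplicit false

noncomputable section

namespace Fermat.Agent.H90.S58

open CuspForm ModularFormClass CongruenceSubgroup

variable {M : ℕ} [NeZero M]

/-- Every element of the Hecke algebra away from `S ⊇ primes(M)` acts on a normalized eigenform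
by a scalar, which lies in every subring containing the `a_ℓ(g)`, `ℓ ∉ S`. -/
theorem eig_exists_scalar (g : CuspForm (Gamma0 M) 2) (hg : g.IsNormalizedEigenform)
    (S : Set ℕ) (hS : ∀ q : ℕ, q.Prime → q ∣ M → q ∈ S) (B : Subring ℂ)
    (hB : ∀ ℓ : ℕ, ℓ.Prime → ¬ ℓ ∣ M → ℓ ∉ S → qCoeff g ℓ ∈ B)
    (t : Module.End ℂ (CuspForm (Gamma0 M) 2)) (ht : t ∈ heckeAlgebra M 2 S) :
    ∃ c ∈ B, t g = c • g := by
  unfold heckeAlgebra at ht
  induction ht using Algebra.adjoin_induction with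
  | mem x hx =>
    rcases hx with ⟨ℓ, hℓ, hℓN, hℓS, rfl⟩ | ⟨q, hqN, hq, hqS, rfl⟩
    · exact ⟨qCoeff g ℓ, hB ℓ hℓ hℓN hℓS,
        Fermat.Agent.H50.heckeTLin_eq_qCoeff_smul g hg hℓ hℓN⟩
    · exact absurd (hS q hq hqN) hqS
  | algebraMap r =>
    refine ⟨(r : ℂ), intCast_mem B r, ?_⟩
    rw [Algebra.algebraMap_eq_smul_one, LinearMap.smul_apply, Module.End.one_apply]
    exact (Int.cast_smul_eq_zsmul ℂ r g).symm
  | add x y _ _ ihx ihy =>
    obtain ⟨c, hc, hxc⟩ := ihx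
    obtain ⟨d, hd, hyd⟩ := ihy
    exact ⟨c + d, B.add_mem hc hd, by rw [LinearMap.add_apply, hxc, hyd, add_smul]⟩
  | mul x y _ _ ihx ihy =>
    obtain ⟨c, hc, hxc⟩ := ihx
    obtain ⟨d, hd, hyd⟩ := ihy
    exact ⟨c * d, B.mul_mem hc hd, by
      rw [Module.End.mul_apply, hyd, map_smul, hxc, smul_smul, mul_comm]⟩

/-- The scalar by which `t` acts on `g`, read off on the first `q`-coefficient. -/
theorem eig_apply_eq (g : CuspForm (Gamma0 M) 2) (hg : g.IsNormalizedEigenform)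
    (S : Set ℕ) (hS : ∀ q : ℕ, q.Prime → q ∣ M → q ∈ S)
    (t : Module.End ℂ (CuspForm (Gamma0 M) 2)) (ht : t ∈ heckeAlgebra M 2 S) :
    t g = qCoeff (t g) 1 • g := by
  obtain ⟨c, -, hc⟩ := eig_exists_scalar g hg S hS ⊤ (fun _ _ _ _ => Subring.mem_top _) t ht
  have h1 : qCoeff (t g) 1 = c := by
    rw [hc, Fermat.Agent.H74.qCoeff_smul_cusp, hg.qCoeff_one, mul_one]
  rw [h1, hc]

omit [NeZero M] in
theorem eig_scalar_unique (g : CuspForm (Gamma0 M) 2) (hg : g.IsNormalizedEigenform)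
    {c d : ℂ} (h : c • g = d • g) : c = d := by
  have h1 : qCoeff (⇑(c • g : CuspForm (Gamma0 M) 2)) 1 =
      qCoeff (⇑(d • g : CuspForm (Gamma0 M) 2)) 1 := by rw [h]
  rwa [Fermat.Agent.H74.qCoeff_smul_cusp, Fermat.Agent.H74.qCoeff_smul_cusp, hg.qCoeff_one,
    mul_one, mul_one] at h1

/-- The Hecke character of a normalized eigenform. -/
def eigChar (g : CuspForm (Gamma0 M) 2) (hg : g.IsNormalizedEigenform)
    (S : Set ℕ) (hS : ∀ q : ℕ, q.Prime → q ∣ M → q ∈ S) : heckeAlgebra M 2 S →+* ℂ where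
  toFun t := qCoeff ((t : Module.End ℂ (CuspForm (Gamma0 M) 2)) g) 1
  map_one' := by
    show qCoeff (((1 : heckeAlgebra M 2 S) : Module.End ℂ (CuspForm (Gamma0 M) 2)) g) 1 = 1
    rw [OneMemClass.coe_one, Module.End.one_apply, hg.qCoeff_one]
  map_mul' a b := by
    show qCoeff (((a * b : heckeAlgebra M 2 S) : Module.End ℂ (CuspForm (Gamma0 M) 2)) g) 1 =
      qCoeff ((a : Module.End ℂ (CuspForm (Gamma0 M) 2)) g) 1 *
        qCoeff ((b : Module.End ℂ (CuspForm (Gamma0 M) 2)) g) 1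
    have ha := eig_apply_eq g hg S hS a a.2
    have hb := eig_apply_eq g hg S hS b b.2
    have hab : ((a * b : heckeAlgebra M 2 S) : Module.End ℂ (CuspForm (Gamma0 M) 2)) g =
        (qCoeff ((a : Module.End ℂ (CuspForm (Gamma0 M) 2)) g) 1 *
          qCoeff ((b : Module.End ℂ (CuspForm (Gamma0 M) 2)) g) 1) • g := by
      rw [MulMemClass.coe_mul, Module.End.mul_apply]
      conv_lhs => rw [hb, map_smul, ha, smul_smul, mul_comm]
    rw [hab, Fermat.Agent.H74.qCoeff_smul_cusp, hg.qCoeff_one, mul_one]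
  map_zero' := by
    show qCoeff (((0 : heckeAlgebra M 2 S) : Module.End ℂ (CuspForm (Gamma0 M) 2)) g) 1 = 0
    rw [ZeroMemClass.coe_zero, LinearMap.zero_apply]
    have h0 : ((0 : ℂ) • g : CuspForm (Gamma0 M) 2) = 0 := zero_smul ℂ g
    rw [← h0, Fermat.Agent.H74.qCoeff_smul_cusp, zero_mul]
  map_add' a b := by
    show qCoeff (((a + b : heckeAlgebra M 2 S) : Module.End ℂ (CuspForm (Gamma0 M) 2)) g) 1 =
      qCoeff ((a : Module.End ℂ (CuspForm (Gamma0 M) 2)) g) 1 +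
        qCoeff ((b : Module.End ℂ (CuspForm (Gamma0 M) 2)) g) 1
    rw [AddMemClass.coe_add, LinearMap.add_apply, Fermat.Agent.H74.qCoeff_add_cusp]

theorem eigChar_apply (g : CuspForm (Gamma0 M) 2) (hg : g.IsNormalizedEigenform)
    (S : Set ℕ) (hS : ∀ q : ℕ, q.Prime → q ∣ M → q ∈ S) (t : heckeAlgebra M 2 S) :
    eigChar g hg S hS t = qCoeff ((t : Module.End ℂ (CuspForm (Gamma0 M) 2)) g) 1 := rfl

/-- The Hecke algebra acts on `g` through `eigChar`. -/
theorem eigChar_smul (g : CuspForm (Gamma0 M) 2) (hg : g.IsNormalizedEigenform)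
    (S : Set ℕ) (hS : ∀ q : ℕ, q.Prime → q ∣ M → q ∈ S) (t : heckeAlgebra M 2 S) :
    (t : Module.End ℂ (CuspForm (Gamma0 M) 2)) g = eigChar g hg S hS t • g :=
  eig_apply_eq g hg S hS t t.2

theorem eigChar_T (g : CuspForm (Gamma0 M) 2) (hg : g.IsNormalizedEigenform)
    (S : Set ℕ) (hS : ∀ q : ℕ, q.Prime → q ∣ M → q ∈ S)
    {ℓ : ℕ} (hℓ : ℓ.Prime) (hℓM : ¬ ℓ ∣ M) (hℓS : ℓ ∉ S) :
    eigChar g hg S hS (heckeAlgebra.T hℓ hℓM hℓS) = qCoeff g ℓ := by
  rw [eigChar_apply, heckeAlgebra.coe_T, Fermat.Agent.H50.heckeTLin_eq_qCoeff_smul g hg hℓ hℓM,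
    Fermat.Agent.H74.qCoeff_smul_cusp, hg.qCoeff_one, mul_one]

theorem eigChar_range_le (g : CuspForm (Gamma0 M) 2) (hg : g.IsNormalizedEigenform)
    (S : Set ℕ) (hS : ∀ q : ℕ, q.Prime → q ∣ M → q ∈ S) (B : Subring ℂ)
    (hB : ∀ ℓ : ℕ, ℓ.Prime → ¬ ℓ ∣ M → ℓ ∉ S → qCoeff g ℓ ∈ B) :
    (eigChar g hg S hS).range ≤ B := by
  rintro _ ⟨t, rfl⟩
  obtain ⟨c, hc, htc⟩ := eig_exists_scalar g hg S hS B hB t t.2
  have : eigChar g hg S hS t = c := by
    rw [eigChar_apply, htc, Fermat.Agent.H74.qCoeff_smul_cusp, hg.qCoeff_one, mul_one]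
  rw [this]
  exact hc

/-- **S58-EIG** (row 1089). -/
theorem eigenChar : Fermat.Agent.H51.S58.EigenCharStatement := by
  intro M _ g hg S hS
  have hS' : ∀ q : ℕ, q.Prime → q ∣ M → q ∈ (↑S : Set ℕ) := fun q hq hqM =>
    Finset.mem_coe.mpr (hS q hq hqM)
  refine ⟨eigChar g hg (↑S : Set ℕ) hS', ?_, ?_⟩
  · intro ℓ hℓ hℓM hℓS
    exact eigChar_T g hg _ hS' hℓ hℓM hℓS
  · intro B hB
    exact eigChar_range_le g hg _ hS' B (fun ℓ hℓ hℓM hℓS => hB ℓ hℓ hℓM (by simpa using hℓS))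

end Fermat.Agent.H90.S58
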